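/-
KL-A (owner helper39): abstract commutative-algebra framework for the key lemma.
Everything lives inside a field `F`; rings are subrings of `F`, `ϖ : F` is the uniformiser of the
"vertical" discrete valuation ring `Ow` of `F`.  `w y ≥ k` is written `y / ϖ ^ k ∈ Ow`.
Imports Mathlib only.
-/
import Mathlib

set_option autoImplicit false

noncomputable section

namespace Fermat.Agent.S18

open Polynomial IntermediateField

section Abs

variable {F : Type*} [Field F]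

/-- `Ow` is a discrete valuation ring with uniformiser `ϖ`. -/
structure IsUnif (Ow : ValuationSubring F) (ϖ : F) : Prop where
  mem : ϖ ∈ Ow
  inv_notMem : ϖ⁻¹ ∉ Ow
  exists_zpow : ∀ y : F, y ≠ 0 → ∃ n : ℤ, y / ϖ ^ n ∈ Ow ∧ (y / ϖ ^ n)⁻¹ ∈ Ow

/-- `B` is a good chart: a noetherian integrally closed subring of `Ow` containing `ϖ`, with the
`q`-expansion principle `B ∩ ϖ Ow = ϖ B`, such that `Ow` is the localisation of `B` at `(ϖ)`, and
such that `B / ϖ` is a Dedekind domain. -/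
structure IsChart (Ow : ValuationSubring F) (ϖ : F) (B : Subring F) : Prop where
  le : ∀ b ∈ B, b ∈ Ow
  unif_mem : ϖ ∈ B
  qep : ∀ b ∈ B, b / ϖ ∈ Ow → b / ϖ ∈ B
  loc : ∀ y ∈ Ow, ∃ b ∈ B, b ≠ 0 ∧ b⁻¹ ∈ Ow ∧ b * y ∈ B
  intClosed : ∀ y : F, IsIntegral B y → y ∈ B
  noeth : IsNoetherianRing B
  ded : ∀ ϖB : B, (ϖB : F) = ϖ → IsDedekindDomain (B ⧸ Ideal.span {ϖB})

/-- "`div h` is divisible by `m` on the chart `B[1/ϖ]`": the fractional ideals
`{y | y ^ m * h ∈ B}` and `{y | y ^ m * h⁻¹ ∈ B}` have a product containing a power of `ϖ`. -/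
def RootData (B : Subring F) (ϖ : F) (m : ℕ) (h : F) : Prop :=
  ∃ (n s : ℕ) (a a' : Fin n → F), (∀ k, a k ^ m * h ∈ B) ∧ (∀ k, a' k ^ m * h⁻¹ ∈ B) ∧
    ∑ k, a k * a' k = ϖ ^ s

/-- `B₁`, `B₂` are finite over `A₀[x]`, `A₀[x⁻¹]` and agree after inverting `x`. -/
structure IsCover (A₀ : Subring F) (x : F) (B₁ B₂ : Subring F) : Prop where
  noeth : IsNoetherianRing A₀
  le₁ : A₀ ≤ B₁
  le₂ : A₀ ≤ B₂
  x_ne : x ≠ 0
  x_mem : x ∈ B₁
  inv_mem : x⁻¹ ∈ B₂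
  fin₁ : ∃ S : Finset F, (∀ e ∈ S, e ∈ B₁) ∧
    ∀ b ∈ B₁, b ∈ Submodule.span A₀ {y : F | ∃ (a : ℕ) (e : F), e ∈ S ∧ y = x ^ a * e}
  fin₂ : ∃ S : Finset F, (∀ e ∈ S, e ∈ B₂) ∧
    ∀ b ∈ B₂, b ∈ Submodule.span A₀ {y : F | ∃ (a : ℕ) (e : F), e ∈ S ∧ y = x⁻¹ ^ a * e}
  overlap₁ : ∀ b ∈ B₁, ∃ N : ℕ, x⁻¹ ^ N * b ∈ B₂
  overlap₂ : ∀ b ∈ B₂, ∃ N : ℕ, x ^ N * b ∈ B₁

end Abs

section Rel

variable {K₀ F : Type*} [Field K₀] [Field F] [Algebra K₀ F]

/-- `A₀[x] ⊆ F` for a subring `A₀` of `K₀` (`A₀ = ⊤` gives `K₀[x]`). -/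
def polyRing (A₀ : Subring K₀) (x : F) : Subring F :=
  ((Polynomial.aeval x : K₀[X] →ₐ[K₀] F).toRingHom.comp (Polynomial.mapRingHom A₀.subtype)).range

/-- The integral closure of `A₀[x]` in `F`. -/
def chart (A₀ : Subring K₀) (x : F) : Subring F :=
  (integralClosure (polyRing A₀ x) F).toSubring

/-- The vertical hypotheses relative to a subfield `E` (`= K₀(x)`): `Ow` is a DVR of `F` with the
same uniformiser as the DVR `A₀` of `K₀`, it is integral over `Ow ∩ E` (i.e. it is the only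
extension of `Ow ∩ E`), and the residue extension is separable (existence of an element of
trace one). -/
structure IsVert (A₀ : ValuationSubring K₀) (ϖ₀ : K₀) (Ow : ValuationSubring F)
    (E : IntermediateField K₀ F) : Prop where
  unif₀ : IsUnif A₀ ϖ₀
  unif : IsUnif Ow (algebraMap K₀ F ϖ₀)
  const_mem : ∀ a ∈ A₀, algebraMap K₀ F a ∈ Ow
  finite : FiniteDimensional E F
  integral : ∀ y ∈ Ow, ∃ p : E[X], p.Monic ∧ (∀ i, (p.coeff i : F) ∈ Ow) ∧ aeval y p = 0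
  sep : ∃ y ∈ Ow, Algebra.trace E F y = 1

/-- `x` is a coordinate of `E` with transcendental reduction. -/
structure IsCoord (A₀ : ValuationSubring K₀) (ϖ₀ : K₀) (Ow : ValuationSubring F)
    (E : IntermediateField K₀ F) (x : F) : Prop where
  adjoin_eq : K₀⟮x⟯ = E
  mem : x ∈ Ow
  transc : ∀ p : K₀[X], (∀ i, p.coeff i ∈ A₀) → aeval x p / algebraMap K₀ F ϖ₀ ∈ Ow →
    ∀ i, p.coeff i / ϖ₀ ∈ A₀

/-- `F / K₀(x)` is unramified at the primes of `K₀[x]` prime to `g`, in elementary form: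
`B_K / f B_K` is reduced for `f` squarefree prime to `g`. -/
def IsUnramOutside (x : F) (g : K₀[X]) : Prop :=
  ∀ f : K₀[X], Squarefree f → IsCoprime f g → ∀ z ∈ chart (⊤ : Subring K₀) x,
    z ^ 2 / aeval x f ∈ chart (⊤ : Subring K₀) x → z / aeval x f ∈ chart (⊤ : Subring K₀) x

end Rel

end Fermat.Agent.S18
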