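/-
KL-A (owner helper39): definitions of the modular half.
-/
import Mathlib
import Fermat.Agent.S18.Defs
import Fermat.Agent.S24.Defs

set_option autoImplicit false

noncomputable section

namespace Fermat.Agent.S18

open Polynomial IntermediateField ModularCurve AlgebraicCurve Fermat.Agent.S24

/-- The function field of `X₀(M)` over a field `K` of characteristic zero, inside `K((q))`. -/
abbrev FK (K : Type*) [Field K] [Algebra ℚ K] (M : ℕ) : IntermediateField K (LaurentSeries K) :=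
  laurentBaseChange K (modularFunctionFieldFull M)

/-- `j` as an element of `FK K M`. -/
def jK (K : Type*) [Field K] [Algebra ℚ K] (M : ℕ) : FK K M :=
  ⟨coeffEmb K jq, coeffEmb_mem_laurentBaseChange K (by
    have h := jqd_mem_full M (one_dvd M)
    rwa [qExpand_one_apply] at h)⟩

/-- `Ow` is the Gauss valuation ring of the subfield `L` of `K₀((q))` attached to the discrete
valuation ring `A₀` of `K₀`. -/
structure IsGauss {K₀ : Type*} [Field K₀] (A₀ : ValuationSubring K₀) (ϖ₀ : K₀)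
    (L : IntermediateField K₀ (LaurentSeries K₀)) (Ow : ValuationSubring L) : Prop where
  unif : IsUnif Ow (algebraMap K₀ L ϖ₀)
  mem : ∀ (P : LaurentSeries A₀) (hP : coeffMap A₀.subtype P ∈ L), (⟨_, hP⟩ : L) ∈ Ow
  inv_mem : ∀ (P : LaurentSeries A₀) (hP : coeffMap A₀.subtype P ∈ L),
    coeffMap (IsLocalRing.residue A₀) P ≠ 0 → (⟨_, hP⟩ : L)⁻¹ ∈ Ow

/-- A base coordinate `x` of the tower `X₀(M) → ℙ¹_x → ℙ¹_j` with good branch locus mod `ℓ`. -/
structure BaseData (M ℓ : ℕ) where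
  X : LaurentSeries ℤ
  Xinv : LaurentSeries ℤ
  mul_inv : X * Xinv = 1
  order_ne : X.order ≠ 0
  mem : coeffMap (Int.castRingHom ℚ) X ∈ modularFunctionFieldFull M
  j_mem : jq ∈ ℚ⟮coeffMap (Int.castRingHom ℚ) X⟯
  g₁ : ℤ[X]
  g₂ : ℤ[X]
  sep₁ : (g₁.map (Int.castRingHom (ZMod ℓ))).Separable
  sep₂ : (g₂.map (Int.castRingHom (ZMod ℓ))).Separable
  ram₁ : ∀ (v : Place Kbar (FN M)) (c : Kbar), (g₁.map (Int.castRingHom Kbar)).eval c ≠ 0 →
    0 < v.ord ((⟨_, coeffEmb_mem_laurentBaseChange Kbar mem⟩ : FN M) - algebraMap Kbar (FN M) c) →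
    v.ord ((⟨_, coeffEmb_mem_laurentBaseChange Kbar mem⟩ : FN M) - algebraMap Kbar (FN M) c) = 1
  ram₂ : ∀ (v : Place Kbar (FN M)) (c : Kbar), (g₂.map (Int.castRingHom Kbar)).eval c ≠ 0 →
    0 < v.ord ((⟨_, coeffEmb_mem_laurentBaseChange Kbar mem⟩ : FN M)⁻¹ -
      algebraMap Kbar (FN M) c) →
    v.ord ((⟨_, coeffEmb_mem_laurentBaseChange Kbar mem⟩ : FN M)⁻¹ -
      algebraMap Kbar (FN M) c) = 1

/-- The coordinate as an element of `FK K M`. -/
def BaseData.xK {M ℓ : ℕ} (D : BaseData M ℓ) (K : Type*) [Field K] [Algebra ℚ K] : FK K M :=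
  ⟨_, coeffEmb_mem_laurentBaseChange K D.mem⟩

end Fermat.Agent.S18
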